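import Fermat.Agent.LR.VarChangePoint

/-!
# Program F (MOONSHOT S52), leaf K1-G: quadratic twist on points

For a field extension `L / K`, `a b d : K` and `r : Lˣ` with `r ^ 2 = d`, the short Weierstrass
curves `y² = x³ + a d² x + b d³` and `y² = x³ + a x + b` become isomorphic over `L` by
`(x, y) ↦ (x / d, y / (d r))`.  The induced additive equivalence on `L`-points (`twistEquiv`)
is semi-equivariant for `σ ∈ Aut(L / K)` with `σ r = ε r`, `ε = ± 1`:
`twistEquiv (σ • P) = ε • σ • twistEquiv P` (`twistEquiv_smul`), hence on `n`-torsion the twisted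
curve carries the Galois module of the original one twisted by the sign character
(`twistTorsionEquiv`, `twistTorsionEquiv_smul`).
-/

set_option autoImplicit false

namespace Fermat.Agent.SW.K1G.Twist

open WeierstrassCurve WeierstrassCurve.Affine
open Fermat.Agent.LR.VarChangePoint
open scoped WeierstrassCurve.Affine

universe u v

variable {K : Type u} {L : Type v} [Field K] [Field L] [Algebra K L]

/-- The short Weierstrass curve `y² = x³ + a x + b`. -/
def shortK (a b : K) : WeierstrassCurve K := ⟨0, 0, 0, a, b⟩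

/-- The change of variables `u = r⁻¹` over `L`. -/
def twistVC (r : Lˣ) : VariableChange L := ⟨r⁻¹, 0, 0, 0⟩

theorem twistVC_smul (a b d : K) (r : Lˣ) (hr : (r : L) ^ 2 = algebraMap K L d) :
    twistVC r • ((shortK a b).baseChange L) = (shortK (a * d ^ 2) (b * d ^ 3)).baseChange L := by
  have h4 : (r : L) ^ 4 = algebraMap K L d ^ 2 := by rw [← hr]; ring
  have h6 : (r : L) ^ 6 = algebraMap K L d ^ 3 := by rw [← hr]; ring
  ext <;>
  simp [twistVC, shortK, WeierstrassCurve.baseChange, WeierstrassCurve.variableChange_a₁,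
    WeierstrassCurve.variableChange_a₂, WeierstrassCurve.variableChange_a₃,
    WeierstrassCurve.variableChange_a₄, WeierstrassCurve.variableChange_a₆, h4, h6, mul_comm]

variable [DecidableEq L]

/-- The additive equivalence `E^d(L) ≃+ E(L)`, `(x, y) ↦ (x / d, y / (d r))`, for `r ^ 2 = d`. -/
noncomputable def twistEquiv (a b d : K) (r : Lˣ) (hr : (r : L) ^ 2 = algebraMap K L d) :
    ((shortK (a * d ^ 2) (b * d ^ 3))⁄L).Point ≃+ ((shortK a b)⁄L).Point :=
  (pointCast (twistVC_smul a b d r hr).symm).trans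
    (pointEquiv ((shortK a b).baseChange L) (twistVC r))

@[simp] theorem twistEquiv_zero (a b d : K) (r : Lˣ) (hr : (r : L) ^ 2 = algebraMap K L d) :
    twistEquiv a b d r hr 0 = 0 := map_zero _

theorem twistEquiv_some (a b d : K) (r : Lˣ) (hr : (r : L) ^ 2 = algebraMap K L d) {X Y : L}
    (h : ((shortK (a * d ^ 2) (b * d ^ 3))⁄L).Nonsingular X Y) :
    ∃ h', twistEquiv a b d r hr (.some X Y h) =
      .some (((r⁻¹ : Lˣ) : L) ^ 2 * X) (((r⁻¹ : Lˣ) : L) ^ 3 * Y) h' := by
  have h1 : (twistVC r • ((shortK a b).baseChange L)).toAffine.Nonsingular X Y :=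
    (twistVC_smul a b d r hr).symm ▸ h
  have h2 := (vc_nonsingular ((shortK a b).baseChange L) (twistVC r) X Y).mpr h1
  have e1 : vcX (twistVC r) X = ((r⁻¹ : Lˣ) : L) ^ 2 * X := by simp [vcX, twistVC]
  have e2 : vcY (twistVC r) X Y = ((r⁻¹ : Lˣ) : L) ^ 3 * Y := by simp [vcY, twistVC]
  refine ⟨e1 ▸ e2 ▸ h2, ?_⟩
  simp only [twistEquiv, AddEquiv.trans_apply]
  rw [pointCast_some, Fermat.Agent.LR.VarChangePoint.pointEquiv_some]
  simp only [Point.some.injEq]
  exact ⟨e1, e2⟩

theorem smul_some (a b : K) (σ : L ≃ₐ[K] L) {X Y : L} (h : ((shortK a b)⁄L).Nonsingular X Y) :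
    ∃ h', σ • (Point.some X Y h : ((shortK a b)⁄L).Point) = Point.some (σ X) (σ Y) h' :=
  ⟨_, rfl⟩

omit [DecidableEq L] in
/-- Negation on a short Weierstrass curve. -/
theorem neg_some_short (a b : K) {X Y : L} (h : ((shortK a b)⁄L).Nonsingular X Y) :
    ∃ h', -(Point.some X Y h : ((shortK a b)⁄L).Point) = Point.some X (-Y) h' := by
  have e : ((shortK a b)⁄L).negY X Y = -Y := by
    simp [Affine.negY, shortK, WeierstrassCurve.baseChange]
  refine ⟨e ▸ (Affine.nonsingular_neg ..).mpr h, ?_⟩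
  rw [Point.neg_some]
  simp only [Point.some.injEq, true_and]
  exact e

/-- **Semi-equivariance of the twist.** If `σ r = ε r` with `ε = ± 1`, then
`twistEquiv (σ • P) = ε • σ • twistEquiv P`. -/
theorem twistEquiv_smul (a b d : K) (r : Lˣ) (hr : (r : L) ^ 2 = algebraMap K L d)
    (σ : L ≃ₐ[K] L) (ε : ℤˣ) (hσ : σ (r : L) = ((ε : ℤ) : L) * r)
    (P : ((shortK (a * d ^ 2) (b * d ^ 3))⁄L).Point) :
    twistEquiv a b d r hr (σ • P) = (ε : ℤ) • (σ • twistEquiv a b d r hr P) := by
  rcases P with _ | ⟨X, Y, h⟩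
  · have h0 : twistEquiv a b d r hr Point.zero = 0 := twistEquiv_zero a b d r hr
    have h1 : σ • (Point.zero : ((shortK (a * d ^ 2) (b * d ^ 3))⁄L).Point) = 0 := rfl
    rw [h1, h0, twistEquiv_zero, smul_zero, smul_zero]
  · obtain ⟨h1, e1⟩ := smul_some (a * d ^ 2) (b * d ^ 3) σ h
    obtain ⟨h2, e2⟩ := twistEquiv_some a b d r hr h1
    obtain ⟨h3, e3⟩ := twistEquiv_some a b d r hr h
    obtain ⟨h4, e4⟩ := smul_some a b σ h3
    rw [e1, e2, e3, e4]
    rcases Int.units_eq_one_or ε with rfl | rfl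
    · have hinv : σ (((r⁻¹ : Lˣ) : L)) = ((r⁻¹ : Lˣ) : L) := by
        rw [Units.val_inv_eq_inv_val, map_inv₀, hσ]
        simp
      rw [Units.val_one, one_smul]
      simp only [map_mul, map_pow, hinv]
    · have hinv : σ (((r⁻¹ : Lˣ) : L)) = -((r⁻¹ : Lˣ) : L) := by
        rw [Units.val_inv_eq_inv_val, map_inv₀, hσ]
        have : (((-1 : ℤˣ) : ℤ) : L) * (r : L) = -(r : L) := by simp
        rw [this, inv_neg]
      rw [Units.val_neg, Units.val_one, neg_one_zsmul]
      obtain ⟨h5, e5⟩ := neg_some_short a b h4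
      rw [e5]
      simp only [Point.some.injEq, map_mul, map_pow, hinv]
      constructor <;> ring

/-- An additive equivalence restricts to the `n`-torsion. -/
def torsionCongr {A B : Type*} [AddCommGroup A] [AddCommGroup B] (e : A ≃+ B) (n : ℕ) :
    Submodule.torsionBy ℤ A n ≃+ Submodule.torsionBy ℤ B n where
  toFun P := ⟨e P.1, by
    have hP := P.2
    rw [Submodule.mem_torsionBy_iff] at hP ⊢
    rw [← map_zsmul, hP, map_zero]⟩
  invFun P := ⟨e.symm P.1, by
    have hP := P.2
    rw [Submodule.mem_torsionBy_iff] at hP ⊢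
    rw [← map_zsmul, hP, map_zero]⟩
  left_inv P := Subtype.ext (e.symm_apply_apply P.1)
  right_inv P := Subtype.ext (e.apply_symm_apply P.1)
  map_add' P Q := Subtype.ext (map_add e P.1 Q.1)

@[simp] theorem coe_torsionCongr {A B : Type*} [AddCommGroup A] [AddCommGroup B] (e : A ≃+ B)
    (n : ℕ) (P : Submodule.torsionBy ℤ A n) : ((torsionCongr e n P : _) : B) = e P.1 := rfl

/-- The twist on `n`-torsion points. -/
noncomputable def twistTorsionEquiv (a b d : K) (r : Lˣ) (hr : (r : L) ^ 2 = algebraMap K L d)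
    (n : ℕ) :
    Submodule.torsionBy ℤ ((shortK (a * d ^ 2) (b * d ^ 3))⁄L).Point n ≃+
      Submodule.torsionBy ℤ ((shortK a b)⁄L).Point n :=
  torsionCongr (twistEquiv a b d r hr) n

open WeierstrassCurve.Affine.Point in
/-- **The `n`-torsion of the quadratic twist is the `n`-torsion twisted by the sign character.**
If `σ r = ε r`, `ε = ± 1`, then `twistTorsionEquiv (σ • P) = ε • σ • twistTorsionEquiv P`. -/
theorem twistTorsionEquiv_smul (a b d : K) (r : Lˣ) (hr : (r : L) ^ 2 = algebraMap K L d)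
    (n : ℕ) (σ : L ≃ₐ[K] L) (ε : ℤˣ) (hσ : σ (r : L) = ((ε : ℤ) : L) * r)
    (P : Submodule.torsionBy ℤ ((shortK (a * d ^ 2) (b * d ^ 3))⁄L).Point n) :
    twistTorsionEquiv a b d r hr n (σ • P) = (ε : ℤ) • (σ • twistTorsionEquiv a b d r hr n P) :=
  Subtype.ext (twistEquiv_smul a b d r hr σ ε hσ P.1)

end Fermat.Agent.SW.K1G.Twist
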