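import Fermat.Agent.SW.K1.Leaves
import Fermat.Agent.SW.K1G.Twist

/-!
# Program F (MOONSHOT S52), leaf Psi: the twisted isomorphism `Ψ` in the `s`-structure

`leafPsi : Leaves.LeafPsi`.  Ingredients:

* `lamAut` : an automorphism of the `s`-structure `SStr Fb f` (with `f L = X_λ`) is an
  automorphism of the `λ`-structure, with the same restriction to the constants (`res_lamAut`);
* `curve_eq` : the curve `y² = x³ + a X_λ x + b X_λ` over `Fb` is the base change of
  `y² = x³ + a L x + b L` along the `s`-structure, `idS` the identity on points;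
* `K1G/Twist.lean` : the twist `twistEquiv` by `δ = Dl`, `r² = f Dl`, over the `s`-structure, and
  its semi-equivariance.
-/

set_option autoImplicit false
set_option linter.unusedSectionVars false

open WeierstrassCurve WeierstrassCurve.Affine

namespace Fermat.Agent.SW.K1G.LeafPsi

open Fermat.Agent.SW.Contracts Fermat.Agent.SW.K1 Fermat.Agent.SW.K1.Twist
open Fermat.Agent.LR.VarChangePoint (pointCast pointCast_some pointCast_zero)
open Fermat.Agent.SW.K1.Leaves (twistData lamC)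
open Fermat.Agent.SW.K1G.Twist

/-- Two ring homomorphisms out of `ℚ(X)` which agree on `X` are equal. -/
theorem ratFunc_ringHom_ext {R : Type*} [Semiring R] (g₁ g₂ : F0 →+* R)
    (hX : g₁ RatFunc.X = g₂ RatFunc.X) : g₁ = g₂ := by
  apply IsLocalization.ringHom_ext (nonZeroDivisors (Polynomial ℚ))
  apply Polynomial.ringHom_ext
  · intro q
    exact DFunLike.congr_fun
      (RingHom.ext_rat ((g₁.comp (algebraMap (Polynomial ℚ) F0)).comp Polynomial.C)
        ((g₂.comp (algebraMap (Polynomial ℚ) F0)).comp Polynomial.C)) q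
  · simp only [RingHom.comp_apply, RatFunc.algebraMap_X]
    exact hX

section Aut

variable {Fb : Type} [Field Fb] [Algebra F0 Fb] [Algebra Qb Fb] [CharZero Fb]
  (f : F0 →+* Fb) (L : F0) (hL : f L = algebraMap F0 Fb RatFunc.X)

/-- The ring automorphism of `Fb` underlying an automorphism of the `s`-structure. -/
noncomputable def lamRingEquiv (σ' : SStr Fb f ≃ₐ[F0] SStr Fb f) : Fb ≃+* Fb :=
  (SStr.toS f).trans ((σ' : SStr Fb f ≃+* SStr Fb f).trans (SStr.toS f).symm)

include hL in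
theorem lamRingEquiv_commutes (σ' : SStr Fb f ≃ₐ[F0] SStr Fb f) (x : F0) :
    lamRingEquiv f σ' (algebraMap F0 Fb x) = algebraMap F0 Fb x := by
  have h : ((lamRingEquiv f σ' : Fb →+* Fb).comp (algebraMap F0 Fb)) = algebraMap F0 Fb := by
    apply ratFunc_ringHom_ext
    rw [RingHom.comp_apply, ← hL]
    exact σ'.commutes L
  exact DFunLike.congr_fun h x

/-- The automorphism of the `λ`-structure underlying an automorphism of the `s`-structure. -/
noncomputable def lamAut (σ' : SStr Fb f ≃ₐ[F0] SStr Fb f) : Fb ≃ₐ[F0] Fb :=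
  AlgEquiv.ofRingEquiv (f := lamRingEquiv f σ') (lamRingEquiv_commutes f L hL σ')

theorem lamAut_apply (σ' : SStr Fb f ≃ₐ[F0] SStr Fb f) (x : Fb) :
    SStr.toS f (lamAut f L hL σ' x) = σ' (SStr.toS f x) := rfl

theorem lamAut_map (σ' : SStr Fb f ≃ₐ[F0] SStr Fb f) (x : F0) :
    lamAut f L hL σ' (f x) = f x :=
  σ'.commutes x

theorem res_lamAut (σ' : SStr Fb f ≃ₐ[F0] SStr Fb f) :
    res (SStr Fb f) σ' = res Fb (lamAut f L hL σ') := by
  apply res_unique
  intro z
  rw [SStr.algebraMap_Qb_apply, SStr.algebraMap_Qb_apply, algebraMap_res]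
  rfl

end Aut

section Points

variable {Fb : Type} [Field Fb] [DecidableEq Fb] (f : F0 →+* Fb)

/-- The identity on points, from a curve over `Fb` to the same curve over `SStr Fb f`. -/
noncomputable def idS (W₁ : WeierstrassCurve Fb) (W₂ : WeierstrassCurve (SStr Fb f))
    (h : W₁ = W₂) : W₁.toAffine.Point ≃+ W₂.toAffine.Point :=
  pointCast h

theorem idS_zero (W₁ : WeierstrassCurve Fb) (W₂ : WeierstrassCurve (SStr Fb f))
    (h : W₁ = W₂) : idS f W₁ W₂ h 0 = 0 := map_zero _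

theorem idS_some (W₁ : WeierstrassCurve Fb) (W₂ : WeierstrassCurve (SStr Fb f))
    (h : W₁ = W₂) {x y : Fb} (hxy : W₁.toAffine.Nonsingular x y) :
    ∃ h' : W₂.toAffine.Nonsingular (SStr.toS f x) (SStr.toS f y),
      idS f W₁ W₂ h (.some x y hxy) = .some (SStr.toS f x) (SStr.toS f y) h' :=
  ⟨h ▸ hxy, pointCast_some h hxy⟩

end Points

section Main

variable {Fb : Type} [Field Fb] [Algebra F0 Fb] [Algebra Qb Fb] [CharZero Fb] [DecidableEq Fb]
  (f : F0 →+* Fb) (L Dl : F0) (hL : f L = algebraMap F0 Fb RatFunc.X) (a b : ℚ)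

theorem algebraMap_C (q : ℚ) : algebraMap F0 Fb (RatFunc.C q) = (q : Fb) :=
  eq_ratCast ((algebraMap F0 Fb).comp RatFunc.C) q

theorem map_C (q : ℚ) : f (RatFunc.C q) = (q : Fb) :=
  eq_ratCast (f.comp RatFunc.C) q

include hL in
theorem algebraMap_lamC (q : ℚ) : algebraMap F0 Fb (lamC q) = f (RatFunc.C q * L) := by
  rw [lamC, map_mul, map_mul, algebraMap_C, map_C, hL]

include hL in
/-- The curve of the `λ`-family over `Fb` is the curve `y² = x³ + a L x + b L` of the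
`s`-structure. -/
theorem curve_eq :
    ((genW (lamC a) (lamC b)).toAffine⁄Fb : WeierstrassCurve Fb) =
      ((shortK (RatFunc.C a * L) (RatFunc.C b * L))⁄(SStr Fb f) :
        WeierstrassCurve (SStr Fb f)) := by
  ext
  · show algebraMap F0 Fb 0 = f 0
    rw [map_zero, map_zero]
  · show algebraMap F0 Fb 0 = f 0
    rw [map_zero, map_zero]
  · show algebraMap F0 Fb 0 = f 0
    rw [map_zero, map_zero]
  · show algebraMap F0 Fb (lamC a) = f (RatFunc.C a * L)
    exact algebraMap_lamC f L hL a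
  · show algebraMap F0 Fb (lamC b) = f (RatFunc.C b * L)
    exact algebraMap_lamC f L hL b

/-- The identity on points, from the `λ`-family over `Fb` to `y² = x³ + a L x + b L` over the
`s`-structure. -/
noncomputable def idPt :
    ((genW (lamC a) (lamC b)).toAffine⁄Fb).Point ≃+
      ((shortK (RatFunc.C a * L) (RatFunc.C b * L))⁄(SStr Fb f)).Point :=
  idS f _ _ (curve_eq f L hL a b)

theorem idPt_smul (σ' : SStr Fb f ≃ₐ[F0] SStr Fb f)
    (P : ((genW (lamC a) (lamC b)).toAffine⁄Fb).Point) :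
    idPt f L hL a b (lamAut f L hL σ' • P) = σ' • idPt f L hL a b P := by
  rcases P with _ | ⟨x, y, h⟩
  · have h1 : lamAut f L hL σ' • (Point.zero : ((genW (lamC a) (lamC b)).toAffine⁄Fb).Point) =
        0 := rfl
    have h2 : idPt f L hL a b Point.zero = 0 := idS_zero f _ _ _
    rw [h1, h2]
    have h3 : idPt f L hL a b 0 = 0 := idS_zero f _ _ _
    rw [h3]
    rfl
  · have h1 : ∃ h', lamAut f L hL σ' • (Point.some x y h :
        ((genW (lamC a) (lamC b)).toAffine⁄Fb).Point) =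
        Point.some (lamAut f L hL σ' x) (lamAut f L hL σ' y) h' := ⟨_, rfl⟩
    obtain ⟨h', e1⟩ := h1
    rw [e1]
    obtain ⟨h2, e2⟩ := idS_some f _ _ (curve_eq f L hL a b) h'
    obtain ⟨h3, e3⟩ := idS_some f _ _ (curve_eq f L hL a b) h
    unfold idPt
    rw [e2, e3]
    rfl

variable (r : Fb) (hr0 : r ≠ 0) (hD : f Dl = r ^ 2)

/-- `r` as a unit of the `s`-structure. -/
noncomputable def rS : (SStr Fb f)ˣ :=
  Units.mk0 (SStr.toS f r) ((_root_.map_ne_zero (SStr.toS f)).mpr hr0)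

include hD in
theorem rS_sq : ((rS f r hr0 : (SStr Fb f)ˣ) : SStr Fb f) ^ 2 = algebraMap F0 (SStr Fb f) Dl := by
  show SStr.toS f r ^ 2 = SStr.toS f (f Dl)
  rw [hD, map_pow]

/-- The twist of `y² = x³ + a L x + b L` by `Dl` over the `s`-structure. -/
noncomputable def twS :
    ((genW (RatFunc.C a * L * Dl ^ 2) (RatFunc.C b * L * Dl ^ 3)).toAffine⁄(SStr Fb f)).Point ≃+
      ((shortK (RatFunc.C a * L) (RatFunc.C b * L))⁄(SStr Fb f)).Point :=
  twistEquiv (K := F0) (L := SStr Fb f) (RatFunc.C a * L) (RatFunc.C b * L) Dl (rS f r hr0)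
    (rS_sq f Dl r hr0 hD)

theorem twS_smul (σ' : SStr Fb f ≃ₐ[F0] SStr Fb f) (ε : ℤˣ)
    (hσ : σ' (SStr.toS f r) = ((ε : ℤ) : SStr Fb f) * SStr.toS f r)
    (P : ((genW (RatFunc.C a * L * Dl ^ 2) (RatFunc.C b * L * Dl ^ 3)).toAffine⁄(SStr Fb f)).Point) :
    twS f L Dl a b r hr0 hD (σ' • P) = (ε : ℤ) • (σ' • twS f L Dl a b r hr0 hD P) :=
  twistEquiv_smul (K := F0) (L := SStr Fb f) (RatFunc.C a * L) (RatFunc.C b * L) Dl
    (rS f r hr0) (rS_sq f Dl r hr0 hD) σ' ε hσ P

/-- The map `(x, y) ↦ (r² x, r³ y)` from the `λ`-family over `Fb` to the twisted curve over the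
`s`-structure. -/
noncomputable def psiPt :
    ((genW (lamC a) (lamC b)).toAffine⁄Fb).Point ≃+
      ((genW (RatFunc.C a * L * Dl ^ 2) (RatFunc.C b * L * Dl ^ 3)).toAffine⁄(SStr Fb f)).Point :=
  (idPt f L hL a b).trans (twS f L Dl a b r hr0 hD).symm

theorem psiPt_smul (σ' : SStr Fb f ≃ₐ[F0] SStr Fb f) (ε : ℤˣ)
    (hσ : σ' (SStr.toS f r) = ((ε : ℤ) : SStr Fb f) * SStr.toS f r)
    (P : ((genW (lamC a) (lamC b)).toAffine⁄Fb).Point) :
    σ' • psiPt f L Dl hL a b r hr0 hD P =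
      (ε : ℤ) • psiPt f L Dl hL a b r hr0 hD (lamAut f L hL σ' • P) := by
  unfold psiPt
  simp only [AddEquiv.trans_apply]
  rw [idPt_smul]
  set tw := twS f L Dl a b r hr0 hD with htw
  set Q := idPt f L hL a b P with hQ
  apply tw.injective
  rw [map_zsmul, AddEquiv.apply_symm_apply]
  have h1 := twS_smul f L Dl a b r hr0 hD σ' ε hσ (tw.symm Q)
  rw [← htw, AddEquiv.apply_symm_apply] at h1
  rw [h1]

variable (pr : PlaceRed Fb (lamC a) (lamC b) 1 5)

/-- **The isomorphism `Ψ`**, `v ↦ tw (φ v)`. -/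
noncomputable def psi :
    V (ev (lamC a) 1) (ev (lamC b) 1) 5 ≃+
      U (SStr Fb f) (RatFunc.C a * L * Dl ^ 2) (RatFunc.C b * L * Dl ^ 3) 5 :=
  pr.φ.trans (torsionCongr (psiPt f L Dl hL a b r hr0 hD) 5)

theorem coe_psi (v : V (ev (lamC a) 1) (ev (lamC b) 1) 5) :
    ((psi f L Dl hL a b r hr0 hD pr v :
        U (SStr Fb f) (RatFunc.C a * L * Dl ^ 2) (RatFunc.C b * L * Dl ^ 3) 5) :
      ((genW (RatFunc.C a * L * Dl ^ 2) (RatFunc.C b * L * Dl ^ 3)).toAffine⁄(SStr Fb f)).Point) =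
      psiPt f L Dl hL a b r hr0 hD
        ((pr.φ v : U Fb (lamC a) (lamC b) 5) : ((genW (lamC a) (lamC b)).toAffine⁄Fb).Point) :=
  rfl

/-- **Equivariance of `Ψ`** for the whole Galois group of the `s`-structure. -/
theorem psi_smul (hplus : ∀ σ, (twistData pr).IsPlus σ → σ r = r)
    (hminus : ∀ σ, (twistData pr).IsMinus σ → σ r = -r)
    (hH : ∀ σ : Fb ≃ₐ[F0] Fb, σ (f RatFunc.X) = f RatFunc.X → σ ∈ (twistData pr).H)
    (σ' : SStr Fb f ≃ₐ[F0] SStr Fb f) (v : V (ev (lamC a) 1) (ev (lamC b) 1) 5) :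
    σ' • psi f L Dl hL a b r hr0 hD pr v =
      psi f L Dl hL a b r hr0 hD pr (res (SStr Fb f) σ' • v) := by
  apply Subtype.ext
  have hL' : ((σ' • psi f L Dl hL a b r hr0 hD pr v :
        U (SStr Fb f) (RatFunc.C a * L * Dl ^ 2) (RatFunc.C b * L * Dl ^ 3) 5) :
      ((genW (RatFunc.C a * L * Dl ^ 2) (RatFunc.C b * L * Dl ^ 3)).toAffine⁄(SStr Fb f)).Point) =
      σ' • psiPt f L Dl hL a b r hr0 hD
        ((pr.φ v : U Fb (lamC a) (lamC b) 5) : ((genW (lamC a) (lamC b)).toAffine⁄Fb).Point) :=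
    rfl
  rw [hL', coe_psi, res_lamAut f L hL σ']
  set σ := lamAut f L hL σ' with hσdef
  have hσs : σ (f RatFunc.X) = f RatFunc.X := lamAut_map f L hL σ' RatFunc.X
  rcases hH σ hσs with h | h
  · have hr : σ' (SStr.toS f r) = (((1 : ℤˣ) : ℤ) : SStr Fb f) * SStr.toS f r := by
      have h1 : σ r = r := hplus σ h
      have h2 : σ' (SStr.toS f r) = SStr.toS f (σ r) := rfl
      rw [h2, h1]
      simp
    rw [psiPt_smul f L Dl hL a b r hr0 hD σ' 1 hr, Units.val_one, one_smul]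
    have h3 : σ • pr.φ v = pr.φ (res Fb σ • v) := h v
    rw [← h3]
    rfl
  · have hr : σ' (SStr.toS f r) = (((-1 : ℤˣ) : ℤ) : SStr Fb f) * SStr.toS f r := by
      have h1 : σ r = -r := hminus σ h
      have h2 : σ' (SStr.toS f r) = SStr.toS f (σ r) := rfl
      rw [h2, h1]
      simp
    rw [psiPt_smul f L Dl hL a b r hr0 hD σ' (-1) hr, Units.val_neg, Units.val_one,
      neg_one_zsmul]
    have h3 : σ • pr.φ v = -pr.φ (res Fb σ • v) := h v
    have h4 : pr.φ (res Fb σ • v) = -(σ • pr.φ v) := by rw [h3, neg_neg]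
    rw [h4]
    have h5 : ((-(σ • pr.φ v) : U Fb (lamC a) (lamC b) 5) :
        ((genW (lamC a) (lamC b)).toAffine⁄Fb).Point) =
        -(σ • ((pr.φ v : U Fb (lamC a) (lamC b) 5) :
          ((genW (lamC a) (lamC b)).toAffine⁄Fb).Point)) := rfl
    rw [h5, map_neg]

end Main

/-- **Leaf Psi.** -/
theorem leafPsi : Fermat.Agent.SW.K1.Leaves.LeafPsi := by
  intro Fb _ _ _ _ _ _ a b pr r hr0 hplus hminus s hs L Dl hL hD hH
  refine ⟨psi (sHom s hs) L Dl hL a b r hr0 hD pr, ?_⟩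
  intro σ' v
  refine psi_smul (sHom s hs) L Dl hL a b r hr0 hD pr hplus hminus ?_ σ' v
  intro σ hσ
  rw [sHom_X] at hσ
  exact hH σ hσ

end Fermat.Agent.SW.K1G.LeafPsi
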