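import Mathlib
import Fermat.Prelude.Def_FLTPrelim_GaloisRep

/-!
# Program F (MOONSHOT S52), leaf K1-G: the `y`-coordinate of a point

`yCoord P` is the `y`-coordinate of an affine point (`0` at the point at infinity).  For a curve
with `a₁ = a₃ = 0`: `yCoord (-P) = -yCoord P`, and a point with `yCoord P = 0` is `2`-torsion,
so `yCoord P ≠ 0` for nonzero points of odd order.  `yCoord` commutes with the Prelude's Galois
action on the points of a base change.
-/

set_option autoImplicit false

open WeierstrassCurve WeierstrassCurve.Affine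

namespace Fermat.Agent.SW.K1G.YCoord

variable {F : Type*} [Field F] {W : WeierstrassCurve F}

/-- The `y`-coordinate of an affine point, `0` at infinity. -/
def yCoord : W.toAffine.Point → F
  | .zero => 0
  | .some _ y _ => y

@[simp] theorem yCoord_zero : yCoord (0 : W.toAffine.Point) = 0 := rfl

@[simp] theorem yCoord_some {x y : F} (h : W.toAffine.Nonsingular x y) :
    yCoord (Point.some x y h) = y := rfl

theorem yCoord_neg (h₁ : W.a₁ = 0) (h₃ : W.a₃ = 0) (P : W.toAffine.Point) :
    yCoord (-P) = -yCoord P := by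
  rcases P with _ | ⟨x, y, h⟩
  · change yCoord (0 : W.toAffine.Point) = -yCoord (0 : W.toAffine.Point)
    simp
  · rw [Point.neg_some]
    simp [Affine.negY, h₁, h₃]

variable [DecidableEq F]

/-- On a curve with `a₁ = a₃ = 0`, a point with `y = 0` is `2`-torsion. -/
theorem two_nsmul_eq_zero_of_yCoord_eq_zero (h₁ : W.a₁ = 0) (h₃ : W.a₃ = 0)
    (P : W.toAffine.Point) (hy : yCoord P = 0) : (2 : ℕ) • P = 0 := by
  rcases P with _ | ⟨x, y, h⟩
  · exact smul_zero _
  · simp only [yCoord_some] at hy
    subst hy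
    rw [two_nsmul]
    apply Point.add_of_Y_eq rfl
    simp [Affine.negY, h₁, h₃]

/-- On a curve with `a₁ = a₃ = 0`, a nonzero point of odd order has `y ≠ 0`. -/
theorem yCoord_ne_zero (h₁ : W.a₁ = 0) (h₃ : W.a₃ = 0) {n : ℕ} (hn : Odd n)
    {P : W.toAffine.Point} (hP : n • P = 0) (hP0 : P ≠ 0) : yCoord P ≠ 0 := by
  intro hy
  have h2 := two_nsmul_eq_zero_of_yCoord_eq_zero h₁ h₃ P hy
  obtain ⟨k, rfl⟩ := hn
  apply hP0
  have : (2 * k + 1) • P = k • ((2 : ℕ) • P) + P := by
    rw [add_nsmul, one_nsmul, mul_comm, mul_nsmul']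
  rw [this, h2, smul_zero, zero_add] at hP
  exact hP

end Fermat.Agent.SW.K1G.YCoord

namespace Fermat.Agent.SW.K1G.YCoord

open WeierstrassCurve.Affine.Point

universe r s v

variable {R : Type r} {S : Type s} {K : Type v} [CommRing R] [CommRing S] [Field K]
  [DecidableEq K] {W' : Affine R} [Algebra R S] [Algebra R K] [Algebra S K]
  [IsScalarTower R S K]

/-- `yCoord` commutes with the Galois action on the points of a base change. -/
theorem yCoord_smul (σ : K ≃ₐ[S] K) (P : (W'⁄K).Point) :
    yCoord (σ • P) = σ (yCoord P) := by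
  rcases P with _ | ⟨x, y, h⟩
  · change yCoord (0 : (W'⁄K).Point) = σ (yCoord (0 : (W'⁄K).Point))
    simp
  · rfl

end Fermat.Agent.SW.K1G.YCoord
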