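import Fermat.Agent.SW.K1G.SignSum
import Fermat.Agent.SW.K1G.YCoord

/-!
# Program F (MOONSHOT S52), leaf K1-G: the sign generator `r` attached to a reduction splitting

`Qb ⊆ Fb` fields, `O` a valuation subring of `Fb` containing the constants `Qb`;
`E` a curve over `Qb`, `EE` a curve over `Fb`, both with `a₁ = a₃ = 0`;
`V` a finite set of nonzero `n`-torsion points of `E` (`n` odd) -- in the application all of
`E[5] ∖ {0}` -- and `φ : V → EE(Fb)` a map whose `y`-coordinates reduce to those of `V`: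
`y(φ v) ≡ y(v)` modulo the maximal ideal of `O`.

`signGen φ := (card V)⁻¹ * ∑ v, y(φ v) / y(v)` is then `≡ 1` modulo the maximal ideal
(`signGen_sub_one`), and if `σ` is a ring endomorphism of `Fb` inducing `τ` on `Qb`, `π` a
permutation of `V` with `τ (y v) = y (π v)` and `σ (y (φ v)) = e * y (φ (π v))`, then
`σ (signGen φ) = e * signGen φ` (`map_signGen`).
-/

set_option autoImplicit false

open WeierstrassCurve WeierstrassCurve.Affine

namespace Fermat.Agent.SW.K1G.SignGen

open Fermat.Agent.SW.K1G.SignSum Fermat.Agent.SW.K1G.YCoord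

variable {Qb Fb : Type*} [Field Qb] [Field Fb] [Algebra Qb Fb]
  {E : WeierstrassCurve Qb} {EE : WeierstrassCurve Fb}
  {V : Type*} [Fintype V]

/-- The sign generator. -/
noncomputable def signGen (ι : V → E.toAffine.Point) (φ : V → EE.toAffine.Point) : Fb :=
  signSum (fun v => yCoord (φ v)) (fun v => algebraMap Qb Fb (yCoord (ι v)))

theorem map_signGen (ι : V → E.toAffine.Point) (φ : V → EE.toAffine.Point)
    (σ : Fb →+* Fb) (τ : Qb →+* Qb) (π : V ≃ V) (e : Fb)
    (hστ : ∀ z : Qb, σ (algebraMap Qb Fb z) = algebraMap Qb Fb (τ z))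
    (hτ : ∀ v, τ (yCoord (ι v)) = yCoord (ι (π v)))
    (hσ : ∀ v, σ (yCoord (φ v)) = e * yCoord (φ (π v))) :
    σ (signGen ι φ) = e * signGen ι φ := by
  unfold signGen
  apply map_signSum _ _ σ π e hσ
  intro v
  rw [hστ, hτ]

variable [CharZero Qb] [DecidableEq Qb]

theorem signGen_sub_one [Nonempty V] (O : ValuationSubring Fb)
    (hconst : ∀ z : Qb, algebraMap Qb Fb z ∈ O)
    (h₁ : E.a₁ = 0) (h₃ : E.a₃ = 0) {n : ℕ} (hn : Odd n)
    (ι : V → E.toAffine.Point) (hι : ∀ v, n • ι v = 0) (hι0 : ∀ v, ι v ≠ 0)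
    (φ : V → EE.toAffine.Point)
    (hred : ∀ v, O.valuation (yCoord (φ v) - algebraMap Qb Fb (yCoord (ι v))) < 1) :
    O.valuation (signGen ι φ - 1) < 1 := by
  have hunit : ∀ z : Qb, z ≠ 0 → O.valuation (algebraMap Qb Fb z) = 1 := by
    intro z hz
    have h1 : O.valuation (algebraMap Qb Fb z) ≤ 1 := (O.valuation_le_one_iff _).mpr (hconst z)
    have h2 : O.valuation (algebraMap Qb Fb z⁻¹) ≤ 1 :=
      (O.valuation_le_one_iff _).mpr (hconst z⁻¹)
    have h0 : O.valuation (algebraMap Qb Fb z) ≠ 0 :=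
      (O.valuation.ne_zero_iff).mpr ((_root_.map_ne_zero _).mpr hz)
    rw [map_inv₀, map_inv₀] at h2
    exact le_antisymm h1 ((inv_le_one₀ (zero_lt_iff.mpr h0)).mp h2)
  unfold signGen
  apply signSum_sub_one O
  · have : ((Fintype.card V : ℕ) : Fb) = algebraMap Qb Fb ((Fintype.card V : ℕ) : Qb) := by
      rw [map_natCast]
    rw [this]
    apply hunit
    exact_mod_cast Fintype.card_ne_zero
  · intro v
    exact hunit _ (yCoord_ne_zero h₁ h₃ hn (hι v) (hι0 v))
  · exact hred

end Fermat.Agent.SW.K1G.SignGen
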