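import Fermat.Agent.SW.K1G.Twist
import Fermat.Agent.SW.K1G.SignGen

/-!
# Program F (MOONSHOT S52), leaf K1-G: the twisted family over the fixed field (abstract form)

Setting.  `k₀ ⊆ Qb` and `K₀ ⊆ Fb` fields with `Qb ⊆ Fb` (constants); `E₀ = shortK a b` over `k₀`,
`EE₀ = shortK A B` over `K₀`; `V = E₀[n](Qb)`, `U = EE₀[n](Fb)`, `n` odd; `φ : V ≃+ U`;
`res : Gal(Fb/K₀) →* Gal(Qb/k₀)` the restriction to the constants; `O` a valuation subring of `Fb`
containing the constants at which the `y`-coordinates of `φ v` reduce to those of `v`; `H` a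
subgroup of `Gal(Fb/K₀)` each of whose elements commutes or anticommutes with `φ`.

Output.  With `r := signGen` (explicit), `δ := r²` lies in `F' := fixedField H`, `r ≡ 1` at `O`,
and with `EE' := shortK (A δ²) (B δ³)` over `F'` there is `Ψ : V ≃+ EE'[n](Fb)` such that
`σ • Ψ v = Ψ (res σ • v)` for every `σ ∈ Gal(Fb/F')` (`exists_family`).
-/

set_option autoImplicit false
set_option linter.unusedSectionVars false
set_option linter.style.haveILetI false

open WeierstrassCurve WeierstrassCurve.Affine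

namespace Fermat.Agent.SW.K1G.Family

open Fermat.Agent.LR.VarChangePoint (pointCast pointCast_some pointCast_zero)
open Fermat.Agent.SW.K1G.Twist Fermat.Agent.SW.K1G.YCoord Fermat.Agent.SW.K1G.SignGen
open scoped WeierstrassCurve.Affine

section Cast

variable {K₀ Fb : Type*} [Field K₀] [Field Fb] [Algebra K₀ Fb] [DecidableEq Fb]
  (F' : IntermediateField K₀ Fb) (A B : K₀)

omit [DecidableEq Fb] in
theorem baseChange_eq :
    ((shortK A B)⁄Fb : WeierstrassCurve Fb) =
      ((shortK (algebraMap K₀ F' A) (algebraMap K₀ F' B))⁄Fb : WeierstrassCurve Fb) := by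
  ext <;> simp [shortK, WeierstrassCurve.baseChange]

/-- The points of `EE₀` over `Fb`, viewed as points of the base change of `EE₀` to `F'`. -/
noncomputable def castBC :
    ((shortK A B)⁄Fb).Point ≃+ ((shortK (algebraMap K₀ F' A) (algebraMap K₀ F' B))⁄Fb).Point :=
  pointCast (baseChange_eq F' A B)

theorem castBC_smul (σ : Fb ≃ₐ[F'] Fb) (P : ((shortK A B)⁄Fb).Point) :
    castBC F' A B ((σ.restrictScalars K₀) • P) = σ • castBC F' A B P := by
  rcases P with _ | ⟨x, y, h⟩
  · have h1 : (σ.restrictScalars K₀) • (Point.zero : ((shortK A B)⁄Fb).Point) = 0 := rfl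
    have h2 : castBC F' A B Point.zero = 0 := pointCast_zero _
    rw [h1, h2]
    have h3 : castBC F' A B 0 = 0 := pointCast_zero _
    rw [h3]
    rfl
  · have h1 : ∃ h', (σ.restrictScalars K₀) • (Point.some x y h : ((shortK A B)⁄Fb).Point) =
        Point.some (σ x) (σ y) h' := ⟨_, rfl⟩
    obtain ⟨h', e1⟩ := h1
    rw [e1]
    unfold castBC
    rw [pointCast_some, pointCast_some]
    rfl

end Cast

section Main

variable {k₀ Qb K₀ Fb : Type*} [Field k₀] [Field Qb] [Field K₀] [Field Fb]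
  [Algebra k₀ Qb] [Algebra Qb Fb] [Algebra K₀ Fb] [DecidableEq Qb] [DecidableEq Fb] [CharZero Qb]
  (a b : k₀) (A B : K₀) (n : ℕ)

/-- `E₀[n](Qb)`. -/
abbrev VV := Submodule.torsionBy ℤ ((shortK a b)⁄Qb).Point n

/-- `EE₀[n](Fb)`. -/
abbrev UU := Submodule.torsionBy ℤ ((shortK A B)⁄Fb).Point n

variable {a b A B n}

/-- The data of the leaf: restriction to constants, the splitting `φ`, the place `O`. -/
structure FamilyData (res : (Fb ≃ₐ[K₀] Fb) →* (Qb ≃ₐ[k₀] Qb)) (φ : VV (Qb := Qb) a b n ≃+ UU (Fb := Fb) A B n)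
    (O : ValuationSubring Fb) (H : Subgroup (Fb ≃ₐ[K₀] Fb)) : Prop where
  hres : ∀ (σ : Fb ≃ₐ[K₀] Fb) (z : Qb), σ (algebraMap Qb Fb z) = algebraMap Qb Fb (res σ z)
  hconst : ∀ z : Qb, algebraMap Qb Fb z ∈ O
  hred : ∀ v : VV (Qb := Qb) a b n, v ≠ 0 →
    O.valuation (yCoord ((φ v : UU (Fb := Fb) A B n) : ((shortK A B)⁄Fb).Point) -
      algebraMap Qb Fb (yCoord (v : ((shortK a b)⁄Qb).Point))) < 1
  hH : ∀ σ ∈ H, (∀ v, σ • φ v = φ (res σ • v)) ∨ (∀ v, σ • φ v = -φ (res σ • v))

/-- The nonzero `n`-torsion points of `E₀`. -/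
abbrev V' (a b : k₀) (n : ℕ) (Qb : Type*) [Field Qb] [Algebra k₀ Qb] [DecidableEq Qb] :=
  {v : VV (Qb := Qb) a b n // v ≠ 0}

variable [Finite (VV (Qb := Qb) a b n)]

noncomputable local instance : Fintype (V' a b n Qb) := Fintype.ofFinite _

/-- The sign generator of the leaf. -/
noncomputable def rGen (φ : VV (Qb := Qb) a b n ≃+ UU (Fb := Fb) A B n) : Fb :=
  signGen (Qb := Qb) (fun v : V' a b n Qb => ((v.1 : VV (Qb := Qb) a b n) : ((shortK a b)⁄Qb).Point))
    (fun v : V' a b n Qb => ((φ v.1 : UU (Fb := Fb) A B n) : ((shortK A B)⁄Fb).Point))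

variable {res : (Fb ≃ₐ[K₀] Fb) →* (Qb ≃ₐ[k₀] Qb)}
  {φ : VV (Qb := Qb) a b n ≃+ UU (Fb := Fb) A B n} {O : ValuationSubring Fb}
  {H : Subgroup (Fb ≃ₐ[K₀] Fb)}

omit [DecidableEq Fb] [CharZero Qb] [Finite (VV (Qb := Qb) a b n)] in
theorem shortK_a₁ : ((shortK a b)⁄Qb : WeierstrassCurve Qb).a₁ = 0 := by
  simp [shortK, WeierstrassCurve.baseChange]

omit [DecidableEq Fb] [CharZero Qb] [Finite (VV (Qb := Qb) a b n)] in
theorem shortK_a₃ : ((shortK a b)⁄Qb : WeierstrassCurve Qb).a₃ = 0 := by
  simp [shortK, WeierstrassCurve.baseChange]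

/-- `r ≡ 1` modulo the maximal ideal of `O`. -/
theorem rGen_sub_one (D : FamilyData res φ O H) (hn : Odd n)
    [Nontrivial (VV (Qb := Qb) a b n)] : O.valuation (rGen φ - 1) < 1 := by
  haveI : Nonempty (V' a b n Qb) := by
    obtain ⟨v, hv⟩ := exists_ne (0 : VV (Qb := Qb) a b n)
    exact ⟨⟨v, hv⟩⟩
  unfold rGen
  apply signGen_sub_one O D.hconst (shortK_a₁ (Qb := Qb)) (shortK_a₃ (Qb := Qb)) hn
  · intro v
    have h := v.1.2
    rw [Submodule.mem_torsionBy_iff] at h
    rw [← natCast_zsmul]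
    exact h
  · intro v h
    exact v.2 (Subtype.ext h)
  · intro v
    exact D.hred v.1 v.2

/-- The permutation of the nonzero points induced by an automorphism of the constants. -/
noncomputable def permV' (τ : Qb ≃ₐ[k₀] Qb) : V' a b n Qb ≃ V' a b n Qb :=
  (MulAction.toPerm τ : Equiv.Perm (VV (Qb := Qb) a b n)).subtypeEquiv (fun v => by
    simp only [MulAction.toPerm_apply, ne_eq]
    rw [smul_eq_zero_iff_eq])

theorem permV'_coe (τ : Qb ≃ₐ[k₀] Qb) (v : V' a b n Qb) :
    ((permV' τ v : V' a b n Qb) : VV (Qb := Qb) a b n) = τ • v.1 := rfl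

/-- `σ r = e r` for `σ ∈ H` commuting (`e = 1`) or anticommuting (`e = -1`) with `φ`. -/
theorem map_rGen (D : FamilyData res φ O H) (σ : Fb ≃ₐ[K₀] Fb) (e : Fb)
    (hσ : ∀ v : VV (Qb := Qb) a b n,
      yCoord ((φ (res σ • v) : UU (Fb := Fb) A B n) : ((shortK A B)⁄Fb).Point) * e =
        σ (yCoord ((φ v : UU (Fb := Fb) A B n) : ((shortK A B)⁄Fb).Point))) :
    σ (rGen φ) = e * rGen φ := by
  unfold rGen
  apply map_signGen _ _ (σ : Fb →+* Fb) (res σ : Qb →+* Qb) (permV' (res σ)) e
  · intro z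
    exact D.hres σ z
  · intro v
    rw [permV'_coe]
    exact (yCoord_smul (res σ) _).symm
  · intro v
    rw [permV'_coe, mul_comm]
    exact (hσ v.1).symm

theorem map_rGen_of_comm (D : FamilyData res φ O H) (σ : Fb ≃ₐ[K₀] Fb)
    (hσ : ∀ v, σ • φ v = φ (res σ • v)) : σ (rGen φ) = rGen φ := by
  rw [map_rGen D σ 1, one_mul]
  intro v
  rw [mul_one, ← hσ v]
  exact yCoord_smul σ _

theorem map_rGen_of_anti (D : FamilyData res φ O H) (σ : Fb ≃ₐ[K₀] Fb)
    (hσ : ∀ v, σ • φ v = -φ (res σ • v)) : σ (rGen φ) = -rGen φ := by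
  rw [map_rGen D σ (-1), neg_one_mul]
  intro v
  have h1 : φ (res σ • v) = -(σ • φ v) := by rw [hσ v, neg_neg]
  rw [h1]
  have h2 : ((-(σ • φ v) : UU (Fb := Fb) A B n) : ((shortK A B)⁄Fb).Point) =
      -(σ • ((φ v : UU (Fb := Fb) A B n) : ((shortK A B)⁄Fb).Point)) := rfl
  rw [h2, yCoord_neg (shortK_a₁ (Qb := Fb)) (shortK_a₃ (Qb := Fb)), yCoord_smul]
  ring

theorem rGen_ne_zero (D : FamilyData res φ O H) (hn : Odd n)
    [Nontrivial (VV (Qb := Qb) a b n)] : rGen φ ≠ 0 := by
  intro h
  have h1 := rGen_sub_one D hn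
  rw [h, zero_sub, Valuation.map_neg, map_one] at h1
  exact lt_irrefl _ h1

/-- `δ = r²` lies in the fixed field of `H`. -/
theorem rGen_sq_mem (D : FamilyData res φ O H) :
    rGen φ ^ 2 ∈ IntermediateField.fixedField H := by
  rw [IntermediateField.mem_fixedField_iff]
  intro σ hσ
  rcases D.hH σ hσ with h | h
  · rw [map_pow, map_rGen_of_comm D σ h]
  · rw [map_pow, map_rGen_of_anti D σ h, neg_sq]

section ValLemmas

variable {L : Type*} [Field L] (O' : ValuationSubring L)

theorem valuation_le_one_of_sub_one {x : L} (hx : O'.valuation (x - 1) < 1) :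
    O'.valuation x ≤ 1 := by
  have : x = (x - 1) + 1 := by ring
  rw [this]
  exact (O'.valuation.map_add _ _).trans (max_le hx.le (by rw [map_one]))

theorem valuation_pow_sub_one {x : L} (hx : O'.valuation (x - 1) < 1) (k : ℕ) :
    O'.valuation (x ^ k - 1) < 1 := by
  induction k with
  | zero => simp
  | succ k ih =>
    have : x ^ (k + 1) - 1 = x ^ k * (x - 1) + (x ^ k - 1) := by ring
    rw [this]
    apply O'.valuation.map_add_lt _ ih
    rw [map_mul, map_pow]
    calc O'.valuation x ^ k * O'.valuation (x - 1) ≤ 1 * O'.valuation (x - 1) := by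
          gcongr
          exact pow_le_one₀ zero_le (valuation_le_one_of_sub_one O' hx)
      _ < 1 := by rw [one_mul]; exact hx

theorem valuation_mul_sub {x y c : L} (hc : O'.valuation c ≤ 1) (hx : O'.valuation (x - 1) < 1)
    (hy : O'.valuation (y - c) < 1) : O'.valuation (y * x - c) < 1 := by
  have : y * x - c = (y - c) * x + c * (x - 1) := by ring
  rw [this]
  apply O'.valuation.map_add_lt
  · rw [map_mul]
    calc O'.valuation (y - c) * O'.valuation x ≤ O'.valuation (y - c) * 1 := by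
          gcongr
          exact valuation_le_one_of_sub_one O' hx
      _ < 1 := by rw [mul_one]; exact hy
  · rw [map_mul]
    calc O'.valuation c * O'.valuation (x - 1) ≤ 1 * O'.valuation (x - 1) := by gcongr
      _ < 1 := by rw [one_mul]; exact hx

end ValLemmas

section Psi

variable (D : FamilyData res φ O H) (hn : Odd n) [Nontrivial (VV (Qb := Qb) a b n)]

/-- `δ` as an element of `F' = fixedField H`. -/
noncomputable def delta : IntermediateField.fixedField H := ⟨rGen φ ^ 2, rGen_sq_mem D⟩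

/-- `r` as a unit. -/
noncomputable def rUnit : Fbˣ := Units.mk0 (rGen φ) (rGen_ne_zero D hn)

theorem rUnit_sq : ((rUnit D hn : Fbˣ) : Fb) ^ 2 =
    algebraMap (IntermediateField.fixedField H) Fb (delta D) := rfl

/-- The coefficients of the twisted curve over `F'`. -/
noncomputable abbrev coeffA : IntermediateField.fixedField H :=
  algebraMap K₀ (IntermediateField.fixedField H) A * delta D ^ 2

noncomputable abbrev coeffB : IntermediateField.fixedField H :=
  algebraMap K₀ (IntermediateField.fixedField H) B * delta D ^ 3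

/-- `EE₀(Fb) ≃+ EE'(Fb)`, the twist by `δ`. -/
noncomputable def psiPoint :
    ((shortK A B)⁄Fb).Point ≃+ ((shortK (coeffA D) (coeffB D))⁄Fb).Point :=
  (castBC (IntermediateField.fixedField H) A B).trans
    (twistEquiv (K := IntermediateField.fixedField H) (L := Fb)
      (algebraMap K₀ (IntermediateField.fixedField H) A)
      (algebraMap K₀ (IntermediateField.fixedField H) B) (delta D) (rUnit D hn)
      (rUnit_sq D hn)).symm

/-- **The isomorphism `Ψ : V ≃+ EE'[n](Fb)`.** -/
noncomputable def psi : VV (Qb := Qb) a b n ≃+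
    Submodule.torsionBy ℤ ((shortK (coeffA D) (coeffB D))⁄Fb).Point n :=
  φ.trans (torsionCongr (psiPoint D hn) n)

theorem psiPoint_smul (σ : Fb ≃ₐ[IntermediateField.fixedField H] Fb) (ε : ℤˣ)
    (hσ : σ (rGen φ) = ((ε : ℤ) : Fb) * rGen φ) (P : ((shortK A B)⁄Fb).Point) :
    σ • psiPoint D hn P = (ε : ℤ) • psiPoint D hn ((σ.restrictScalars K₀) • P) := by
  unfold psiPoint
  simp only [AddEquiv.trans_apply]
  rw [castBC_smul]
  set tw := twistEquiv (K := IntermediateField.fixedField H) (L := Fb)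
      (algebraMap K₀ (IntermediateField.fixedField H) A)
      (algebraMap K₀ (IntermediateField.fixedField H) B) (delta D) (rUnit D hn)
      (rUnit_sq D hn) with htw
  set Q := castBC (IntermediateField.fixedField H) A B P with hQ
  apply tw.injective
  rw [map_zsmul, AddEquiv.apply_symm_apply]
  have h1 := twistEquiv_smul (K := IntermediateField.fixedField H) (L := Fb)
      (algebraMap K₀ (IntermediateField.fixedField H) A)
      (algebraMap K₀ (IntermediateField.fixedField H) B) (delta D) (rUnit D hn)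
      (rUnit_sq D hn) σ ε hσ (tw.symm Q)
  rw [← htw, AddEquiv.apply_symm_apply] at h1
  rw [h1]

include hn in
/-- `δ ≡ 1` at the place. -/
theorem delta_sub_one : O.valuation (((delta D : IntermediateField.fixedField H) : Fb) - 1) < 1 :=
  valuation_pow_sub_one O (rGen_sub_one D hn) 2

include hn in
/-- If `A ≡ c` at the place then `A δ² ≡ c`. -/
theorem coeffA_sub {c : Fb} (hc : O.valuation c ≤ 1)
    (hA : O.valuation (algebraMap K₀ Fb A - c) < 1) :
    O.valuation (((coeffA D : IntermediateField.fixedField H) : Fb) - c) < 1 := by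
  have h1 : ((coeffA D : IntermediateField.fixedField H) : Fb) =
      algebraMap K₀ Fb A * (rGen φ ^ 2) ^ 2 := rfl
  rw [h1]
  exact valuation_mul_sub O hc (valuation_pow_sub_one O (delta_sub_one D hn) 2) hA

include hn in
/-- If `B ≡ c` at the place then `B δ³ ≡ c`. -/
theorem coeffB_sub {c : Fb} (hc : O.valuation c ≤ 1)
    (hB : O.valuation (algebraMap K₀ Fb B - c) < 1) :
    O.valuation (((coeffB D : IntermediateField.fixedField H) : Fb) - c) < 1 := by
  have h1 : ((coeffB D : IntermediateField.fixedField H) : Fb) =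
      algebraMap K₀ Fb B * (rGen φ ^ 2) ^ 3 := rfl
  rw [h1]
  exact valuation_mul_sub O hc (valuation_pow_sub_one O (delta_sub_one D hn) 3) hB

theorem coe_psi (v : VV (Qb := Qb) a b n) :
    ((psi D hn v : Submodule.torsionBy ℤ ((shortK (coeffA D) (coeffB D))⁄Fb).Point n) :
      ((shortK (coeffA D) (coeffB D))⁄Fb).Point) =
      psiPoint D hn ((φ v : UU (Fb := Fb) A B n) : ((shortK A B)⁄Fb).Point) := rfl

/-- **Equivariance of `Ψ`** for the elements of `Gal(Fb/F')` (which lie in `H` when `H` is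
closed: `hσH`). -/
theorem psi_smul (σ : Fb ≃ₐ[IntermediateField.fixedField H] Fb)
    (hσH : σ.restrictScalars K₀ ∈ H) (v : VV (Qb := Qb) a b n) :
    σ • psi D hn v = psi D hn (res (σ.restrictScalars K₀) • v) := by
  apply Subtype.ext
  have hL : ((σ • psi D hn v : Submodule.torsionBy ℤ
      ((shortK (coeffA D) (coeffB D))⁄Fb).Point n) :
      ((shortK (coeffA D) (coeffB D))⁄Fb).Point) =
      σ • psiPoint D hn ((φ v : UU (Fb := Fb) A B n) : ((shortK A B)⁄Fb).Point) := rfl
  rw [hL, coe_psi]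
  rcases D.hH _ hσH with h | h
  · have hr : σ (rGen φ) = (((1 : ℤˣ) : ℤ) : Fb) * rGen φ := by
      have := map_rGen_of_comm D _ h
      simpa using this
    rw [psiPoint_smul D hn σ 1 hr, Units.val_one, one_smul, ← h v]
    rfl
  · have hr : σ (rGen φ) = (((-1 : ℤˣ) : ℤ) : Fb) * rGen φ := by
      have := map_rGen_of_anti D _ h
      simpa using this
    rw [psiPoint_smul D hn σ (-1) hr, Units.val_neg, Units.val_one, neg_one_zsmul]
    have h1 : φ (res (σ.restrictScalars K₀) • v) = -((σ.restrictScalars K₀) • φ v) := by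
      rw [h v, neg_neg]
    rw [h1]
    have h2 : ((-((σ.restrictScalars K₀) • φ v) : UU (Fb := Fb) A B n) :
        ((shortK A B)⁄Fb).Point) =
        -((σ.restrictScalars K₀) • ((φ v : UU (Fb := Fb) A B n) : ((shortK A B)⁄Fb).Point)) := rfl
    rw [h2, map_neg]

end Psi

end Main

end Fermat.Agent.SW.K1G.Family
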