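import Fermat.Agent.SW.K1.Leaves
import Fermat.Agent.SW.K1G.Family
import Fermat.Agent.EC.Tor.Main

/-!
# Program F (MOONSHOT S52), leaf K1-G: the sign element in the vocabulary of `SW/K1/Setup`

From a `PlaceRed` (output of leaf B), whose reduction isomorphism is compatible with the
coordinates (`PlaceRed.coord`, hence `RedY`), the explicit sign generator `r` of
`K1G/Family.lean` satisfies the conclusion of `Leaves.LeafG` -- with no appeal to the conjugacy of
places.  `leafG : Leaves.LeafG`.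
-/

set_option autoImplicit false
set_option linter.unusedSectionVars false
set_option linter.style.haveILetI false

open WeierstrassCurve WeierstrassCurve.Affine

namespace Fermat.Agent.SW.K1G.Adapter

open Fermat.Agent.SW.Contracts Fermat.Agent.SW.K1 Fermat.Agent.SW.K1.Twist
open Fermat.Agent.SW.K1G.Family Fermat.Agent.SW.K1G.YCoord
open Fermat.Agent.SW.K1.Leaves (twistData)

variable {Fb : Type} [Field Fb] [Algebra F0 Fb] [Algebra Qb Fb] [CharZero Fb] [DecidableEq Fb]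
  {A B : F0} {s₁ : ℚ} {n : ℕ}

/-- The reduction isomorphism of a `PlaceRed` is compatible with the `y`-coordinates. -/
def RedY (P : PlaceRed Fb A B s₁ n) : Prop :=
  ∀ v : V (ev A s₁) (ev B s₁) n, v ≠ 0 →
    P.O.valuation (yOf ((P.φ v : U Fb A B n) : ((genW A B).toAffine⁄Fb).Point) -
      algebraMap Qb Fb (yOf (v : ((shortW (ev A s₁) (ev B s₁)).toAffine⁄Qb).Point))) < 1

/-- `RedY` follows from the coordinatewise reduction property of a `PlaceRed`. -/
theorem redY (P : PlaceRed Fb A B s₁ n) : RedY P := by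
  intro v hv
  rcases hP : (v : ((shortW (ev A s₁) (ev B s₁)).toAffine⁄Qb).Point) with _ | ⟨x, y, h⟩
  · exact absurd (Subtype.ext hP) hv
  · obtain ⟨X, Y, h', e, -, hY⟩ := P.coord v x y h hP
    rw [e]
    exact hY

theorem yOf_eq_yCoord {K : Type*} [Field K] {W : WeierstrassCurve K} (P : W.toAffine.Point) :
    yOf P = yCoord P := by
  rcases P with _ | ⟨x, y, h⟩ <;> rfl

theorem familyData (P : PlaceRed Fb A B s₁ n) :
    FamilyData (k₀ := ℚ) (Qb := Qb) (K₀ := F0) (Fb := Fb) (a := ev A s₁) (b := ev B s₁)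
      (A := A) (B := B) (n := n) (res Fb) P.φ P.O (twistData P).H where
  hres := fun σ z => (algebraMap_res σ z).symm
  hconst := P.const_mem
  hred := fun v hv => by
    have h := redY P v hv
    rw [yOf_eq_yCoord, yOf_eq_yCoord] at h
    exact h
  hH := fun σ hσ => hσ

/-- **The sign element.** -/
theorem exists_signElement (P : PlaceRed Fb A B s₁ n) (hn : Odd n)
    [Finite (V (ev A s₁) (ev B s₁) n)] [Nontrivial (V (ev A s₁) (ev B s₁) n)] :
    ∃ r : Fb, r ≠ 0 ∧ (∀ σ, (twistData P).IsPlus σ → σ r = r) ∧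
      (∀ σ, (twistData P).IsMinus σ → σ r = -r) ∧ P.O.valuation (r - 1) < 1 := by
  have D := familyData P
  haveI : Finite (VV (k₀ := ℚ) (Qb := Qb) (ev A s₁) (ev B s₁) n) :=
    inferInstanceAs (Finite (V (ev A s₁) (ev B s₁) n))
  haveI : Nontrivial (VV (k₀ := ℚ) (Qb := Qb) (ev A s₁) (ev B s₁) n) :=
    inferInstanceAs (Nontrivial (V (ev A s₁) (ev B s₁) n))
  refine ⟨rGen (k₀ := ℚ) (Qb := Qb) (K₀ := F0) (a := ev A s₁) (b := ev B s₁) P.φ,
    rGen_ne_zero D hn, ?_, ?_, rGen_sub_one D hn⟩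
  · intro σ hσ
    exact map_rGen_of_comm D σ hσ
  · intro σ hσ
    exact map_rGen_of_anti D σ hσ

/-! ### Finiteness and nontriviality of `V a b n` -/

theorem shortW_Δ_ne_zero {a b : ℚ} (h : 4 * a ^ 3 + 27 * b ^ 2 ≠ 0) :
    ((shortW a b).toAffine⁄Qb : WeierstrassCurve Qb).Δ ≠ 0 := by
  have h1 : ((shortW a b).toAffine⁄Qb : WeierstrassCurve Qb).Δ =
      algebraMap ℚ Qb (-16 * (4 * a ^ 3 + 27 * b ^ 2)) := by
    change ((shortW a b).map (algebraMap ℚ Qb)).Δ = _
    rw [WeierstrassCurve.map_Δ]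
    congr 1
    simp only [shortW, WeierstrassCurve.Δ, WeierstrassCurve.b₂,
      WeierstrassCurve.b₄, WeierstrassCurve.b₆, WeierstrassCurve.b₈]
    ring
  rw [h1]
  exact (_root_.map_ne_zero _).mpr (mul_ne_zero (by norm_num) h)

theorem finite_V {a b : ℚ} (h : 4 * a ^ 3 + 27 * b ^ 2 ≠ 0) {n : ℕ} (hn : 0 < n) :
    Finite (V a b n) :=
  Fermat.Agent.EC.Tor.Main.finite_torsion _ (shortW_Δ_ne_zero h)
    (by exact_mod_cast hn.ne')

theorem card_V {a b : ℚ} (h : 4 * a ^ 3 + 27 * b ^ 2 ≠ 0) {n : ℕ} (hn : 0 < n) :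
    Nat.card (V a b n) = n ^ 2 :=
  Fermat.Agent.EC.Tor.Main.card_torsion _ (shortW_Δ_ne_zero h) (by exact_mod_cast hn.ne')

theorem nontrivial_V {a b : ℚ} (h : 4 * a ^ 3 + 27 * b ^ 2 ≠ 0) {n : ℕ} (hn : 1 < n) :
    Nontrivial (V a b n) := by
  haveI := finite_V h (lt_trans Nat.zero_lt_one hn)
  rw [← Finite.one_lt_card_iff_nontrivial, card_V h (lt_trans Nat.zero_lt_one hn)]
  exact Nat.one_lt_pow (by norm_num) hn

/-- **The sign element at `n = 5`**, hypotheses discharged. -/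
theorem exists_signElement_five {A B : F0} {s₁ : ℚ} (P : PlaceRed Fb A B s₁ 5)
    (hΔ : 4 * ev A s₁ ^ 3 + 27 * ev B s₁ ^ 2 ≠ 0) :
    ∃ r : Fb, r ≠ 0 ∧ (∀ σ, (twistData P).IsPlus σ → σ r = r) ∧
      (∀ σ, (twistData P).IsMinus σ → σ r = -r) ∧ P.O.valuation (r - 1) < 1 := by
  haveI := finite_V hΔ (n := 5) (by norm_num)
  haveI := nontrivial_V hΔ (n := 5) (by norm_num)
  exact exists_signElement P (by decide)

/-- **Leaf G (SIGN ELEMENT).** -/
theorem leafG : Fermat.Agent.SW.K1.Leaves.LeafG := by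
  intro Fb _ _ _ _ _ _ A B s₁ hΔ pr
  exact exists_signElement_five pr hΔ

end Fermat.Agent.SW.K1G.Adapter
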