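import Mathlib

/-!
# Program F (MOONSHOT S52), leaf K1-G: the explicit Kummer generator of the sign character

Abstract form.  `O` a valuation subring of a field `Fb`, `I` a finite index set, `Y c : I → Fb`
with `c i` units of `O` and `Y i ≡ c i` modulo the maximal ideal, `card I` a unit of `O`.  Then
`r := (card I)⁻¹ * ∑ i, Y i / c i` satisfies `r ≡ 1` modulo the maximal ideal (`signSum_sub_one`),
in particular `r` is a unit of `O`.  If a ring endomorphism `σ` permutes the data up to a common
factor `e` (`σ (Y i) = e * Y (π i)`, `σ (c i) = c (π i)`), then `σ r = e * r` (`map_signSum`).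

In the application `I` = nonzero points of `E[5](ℚ̄)`, `c v = y(v)`, `Y v = y(φ₀ v)` where `φ₀` is
the inverse of the reduction isomorphism: `r` is fixed by the elements of the Galois group that
commute with `φ₀` and negated by those that anticommute, so `δ := r ^ 2` is the Kummer class of
the sign character, normalised by `δ ≡ 1` at the place.
-/

set_option autoImplicit false

namespace Fermat.Agent.SW.K1G.SignSum

open scoped BigOperators

variable {Fb : Type*} [Field Fb] {I : Type*} [Fintype I]

/-- The normalised sum `(card I)⁻¹ * ∑ i, Y i / c i`. -/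
noncomputable def signSum (Y c : I → Fb) : Fb :=
  ((Fintype.card I : ℕ) : Fb)⁻¹ * ∑ i, Y i / c i

theorem map_signSum (Y c : I → Fb) (σ : Fb →+* Fb) (π : I ≃ I) (e : Fb)
    (hY : ∀ i, σ (Y i) = e * Y (π i)) (hc : ∀ i, σ (c i) = c (π i)) :
    σ (signSum Y c) = e * signSum Y c := by
  unfold signSum
  rw [map_mul, map_inv₀, map_natCast, map_sum]
  have h1 : ∀ i, σ (Y i / c i) = e * (Y (π i) / c (π i)) := by
    intro i
    rw [map_div₀, hY, hc, mul_div_assoc]
  simp_rw [h1]
  rw [← Finset.mul_sum, Equiv.sum_comp π (fun j => Y j / c j)]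
  ring

theorem signSum_sub_one (O : ValuationSubring Fb) (Y c : I → Fb)
    (hcard : O.valuation ((Fintype.card I : ℕ) : Fb) = 1)
    (hc : ∀ i, O.valuation (c i) = 1) (hY : ∀ i, O.valuation (Y i - c i) < 1) :
    O.valuation (signSum Y c - 1) < 1 := by
  have hn0 : ((Fintype.card I : ℕ) : Fb) ≠ 0 := by
    intro h
    rw [h, map_zero] at hcard
    exact zero_ne_one hcard
  have hc0 : ∀ i, c i ≠ 0 := by
    intro i h
    have := hc i
    rw [h, map_zero] at this
    exact zero_ne_one this
  have key : signSum Y c - 1 =
      ((Fintype.card I : ℕ) : Fb)⁻¹ * ∑ i, (Y i - c i) / c i := by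
    unfold signSum
    have h2 : ∑ i : I, (Y i - c i) / c i = ∑ i, Y i / c i - (Fintype.card I : ℕ) := by
      have : ∀ i, (Y i - c i) / c i = Y i / c i - 1 := by
        intro i
        rw [sub_div, div_self (hc0 i)]
      simp_rw [this]
      rw [Finset.sum_sub_distrib]
      simp
    rw [h2, mul_sub, inv_mul_cancel₀ hn0]
  rw [key, map_mul, map_inv₀, hcard, inv_one, one_mul]
  apply O.valuation.map_sum_lt (by norm_num)
  intro i _
  rw [map_div₀, hc i, div_one]
  exact hY i

/-- `r` is a unit of `O`. -/
theorem valuation_signSum (O : ValuationSubring Fb) (Y c : I → Fb)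
    (hcard : O.valuation ((Fintype.card I : ℕ) : Fb) = 1)
    (hc : ∀ i, O.valuation (c i) = 1) (hY : ∀ i, O.valuation (Y i - c i) < 1) :
    O.valuation (signSum Y c) = 1 := by
  have h := signSum_sub_one O Y c hcard hc hY
  have h1 : signSum Y c = (signSum Y c - 1) + 1 := by ring
  rw [h1, O.valuation.map_add_eq_of_lt_right (by rw [map_one]; exact h), map_one]

end Fermat.Agent.SW.K1G.SignSum
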